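import Fermat.Agent.S05.Defs
import Fermat.Agent.S05.Sep
import Fermat.Prelude.Def_FLTPrelim_Ramification

/-!
# S05 skeleton: exact interface statements of all pieces (WIP; contains `sorry`)

Each piece below goes to its own file `Fermat/Agent/S05/<Piece>.lean` (same namespace, same names,
same statements). This file only fixes the interfaces; never import it from a landed file.
-/

set_option autoImplicit false

namespace Fermat.Agent.S05.Skeleton

open WeierstrassCurve WeierstrassCurve.Affine
open Fermat.Agent.S05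

variable {K : Type*} [Field K] [DecidableEq K] {Γ₀ : Type*} [LinearOrderedCommGroupWithZero Γ₀]
variable {v : Valuation K Γ₀} {W : WeierstrassCurve K}

/-! ## Piece `Kernel.lean` (helper11): the kernel of reduction -/

theorem inKer_neg {P : W.toAffine.Point} (hP : InKer v W P) : InKer v W (-P) := sorry

theorem inKer_add (hW : IntegralCoeffs v W) {P Q : W.toAffine.Point}
    (hP : InKer v W P) (hQ : InKer v W Q) : InKer v W (P + Q) := sorry

theorem eq_zero_of_inKer_of_nsmul_eq_zero (hW : IntegralCoeffs v W) {P : W.toAffine.Point}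
    (hP : InKer v W P) {n : ℕ} (hn : v (n : K) = 1) (hnP : n • P = 0) : P = 0 := sorry

/-! ## Piece `Integral.lean`: small integrality facts -/

/-- the `y`-coordinate of a point with integral `x`-coordinate is integral -/
theorem y_integral (hW : IntegralCoeffs v W) {x y : K} (h : W.toAffine.Equation x y)
    (hx : v x ≤ 1) : v y ≤ 1 := sorry

/-- unit discriminant: at an integral point one of the partial derivatives is a unit.
(Move the point to `(0,0)` with Mathlib's `VariableChange`; there `Δ ∈ (a₃, a₄, a₆)`.) -/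
theorem partial_unit_of_disc_unit (hW : IntegralCoeffs v W) (hΔ : v W.Δ = 1) {x y : K}
    (h : W.toAffine.Equation x y) (hx : v x ≤ 1) (hy : v y ≤ 1) :
    v (W.a₁ * y - (3 * x ^ 2 + 2 * W.a₂ * x + W.a₄)) = 1 ∨ v (2 * y + W.a₁ * x + W.a₃) = 1 := sorry

/-! ## Piece `Good.lean`: the general good reduction theorem -/

theorem fix_torsion_of_good {σ : K →+* K} {f : W.toAffine.Point →+ W.toAffine.Point}
    (hW : IntegralCoeffs v W) (hΔ : v W.Δ = 1) (hf : InertiaLike v W σ f)
    {n : ℕ} (hn : v (n : K) = 1) {T : W.toAffine.Point} (hT : n • T = 0) : f T = T := sorry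

/-! ## Piece `Node.lean` (helper4): points near the node -/

variable {α β : K}

theorem NodeData.symm (hN : NodeData v W α β) : NodeData v W β α := sorry

theorem NodeData.integralCoeffs (hN : NodeData v W α β) : IntegralCoeffs v W := sorry

/-- `(0,0)` is a nonsingular point -/
theorem NodeData.nonsingular_zero (hN : NodeData v W α β) : W.toAffine.Nonsingular 0 0 := sorry

/-- the `2`-torsion point `(0,0)` -/
noncomputable def T0 (hN : NodeData v W α β) : W.toAffine.Point := Point.some 0 0 (NodeData.nonsingular_zero hN)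

/-- classification of points -/
theorem classify (hN : NodeData v W α β) (P : W.toAffine.Point) :
    InE0 v W P ∨ Antipodal v W P ∨
      ∃ g : Γ₀, v W.a₄ < g ∧ g < 1 ∧ (OnBranch v W α g P ∨ OnBranch v W β g P) := sorry

/-- at a point with unit `x`-coordinate the reduction is nonsingular -/
theorem partial_unit_of_unit_x (hN : NodeData v W α β) {x y : K} (h : W.toAffine.Equation x y)
    (hx : v x = 1) :
    v (W.a₁ * y - (3 * x ^ 2 + 2 * W.a₂ * x + W.a₄)) = 1 ∨ v (2 * y + W.a₁ * x + W.a₃) = 1 := sorry

/-- (N) negation swaps the branches -/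
theorem onBranch_neg (hN : NodeData v W α β) {g : Γ₀} {P : W.toAffine.Point}
    (hP : OnBranch v W α g P) : OnBranch v W β g (-P) := sorry

/-- (T) translation by `T0` -/
theorem antipodal_add_T0 (hN : NodeData v W α β) {P : W.toAffine.Point} (hP : InE0 v W P) :
    Antipodal v W (P + T0 hN) := sorry

theorem inE0_add_T0 (hN : NodeData v W α β) {P : W.toAffine.Point} (hP : Antipodal v W P) :
    InE0 v W (P + T0 hN) := sorry

theorem onBranch_add_T0 (hN : NodeData v W α β) {g : Γ₀} (hg : v W.a₄ < g) (hg1 : g < 1)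
    {P : W.toAffine.Point} (hP : OnBranch v W α g P) :
    OnBranch v W β (v W.a₄ / g) (P + T0 hN) := sorry

/-- (D1) adding a point of `E₀` does not change the branch data -/
theorem onBranch_add_inE0 (hN : NodeData v W α β) {g : Γ₀} (hg : v W.a₄ < g) (hg1 : g < 1)
    {P Q : W.toAffine.Point} (hP : InE0 v W P) (hQ : OnBranch v W α g Q) :
    OnBranch v W α g (Q + P) := sorry

/-- (D2) two points with the same branch data differ by an element of `E₀` -/
theorem inE0_sub_of_onBranch (hN : NodeData v W α β) {g : Γ₀} (hg : v W.a₄ < g) (hg1 : g < 1)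
    {P Q : W.toAffine.Point} (hP : OnBranch v W α g P) (hQ : OnBranch v W α g Q) :
    InE0 v W (Q - P) := sorry

/-- (D3) difference of two points on the same branch at different levels -/
theorem onBranch_sub (hN : NodeData v W α β) {gP gQ : Γ₀} (hQ0 : v W.a₄ < gQ) (hQP : gQ < gP)
    (hP1 : gP < 1) {P Q : W.toAffine.Point} (hP : OnBranch v W α gP P)
    (hQ : OnBranch v W α gQ Q) : OnBranch v W α (gQ / gP) (Q - P) := sorry

/-! ## Piece `Comp.lean` (helper4): the component homomorphism and its consequence for torsion -/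

theorem level_pow_of_torsion (hN : NodeData v W α β) {p : ℕ} (hp : 0 < p)
    {T : W.toAffine.Point} (hT : p • T = 0) {g : Γ₀} (hg : v W.a₄ < g) (hg1 : g < 1)
    (hTα : OnBranch v W α g T) : ∃ k : ℕ, g ^ p = v W.a₄ ^ (2 * k) := sorry

/-! ## Piece `Mult.lean`: the general multiplicative reduction theorem -/

theorem fix_torsion_of_node {σ : K →+* K} {f : W.toAffine.Point →+ W.toAffine.Point}
    (hN : NodeData v W α β) (hf : InertiaLike v W σ f) {p : ℕ} (hp : v (p : K) = 1)
    (hRα : ∀ g : Γ₀, v W.a₄ < g → g < 1 → (∃ k : ℕ, g ^ p = v W.a₄ ^ (2 * k)) →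
      ∃ R : W.toAffine.Point, OnBranch v W α g R ∧ f R = R)
    (hRβ : ∀ g : Γ₀, v W.a₄ < g → g < 1 → (∃ k : ℕ, g ^ p = v W.a₄ ^ (2 * k)) →
      ∃ R : W.toAffine.Point, OnBranch v W β g R ∧ f R = R)
    {T : W.toAffine.Point} (hT : p • T = 0) : f T = T := sorry

/-! ## Piece `Shift.lean`: translating the model -/

/-- the curve obtained by the substitution `x = x' + r`, `y = y' + t` -/
def shiftCurve (W : WeierstrassCurve K) (r t : K) : WeierstrassCurve K :=
  ⟨W.a₁, W.a₂ + 3 * r, W.a₃ + r * W.a₁ + 2 * t,
    W.a₄ + 2 * r * W.a₂ - t * W.a₁ + 3 * r ^ 2,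
    W.a₆ + r * W.a₄ + r ^ 2 * W.a₂ + r ^ 3 - t * W.a₃ - t ^ 2 - r * t * W.a₁⟩

theorem shift_nonsingular (W : WeierstrassCurve K) (r t x y : K) :
    (shiftCurve W r t).toAffine.Nonsingular (x - r) (y - t) ↔ W.toAffine.Nonsingular x y := sorry

/-- the induced isomorphism of groups of points `(x, y) ↦ (x - r, y - t)` -/
noncomputable def shiftPoint (W : WeierstrassCurve K) (r t : K) :
    W.toAffine.Point ≃+ (shiftCurve W r t).toAffine.Point := sorry

theorem shiftPoint_some (W : WeierstrassCurve K) (r t : K) {x y : K}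
    (h : W.toAffine.Nonsingular x y) :
    shiftPoint W r t (Point.some x y h) =
      Point.some (x - r) (y - t) ((shift_nonsingular W r t x y).mpr h) := sorry

/-- transport of an `InertiaLike` structure along the shift, when `σ` fixes `r` and `t` -/
theorem InertiaLike.shift {σ : K →+* K} {f : W.toAffine.Point →+ W.toAffine.Point}
    (hf : InertiaLike v W σ f) {r t : K} (hr : σ r = r) (ht : σ t = t) :
    InertiaLike v (shiftCurve W r t) σ
      (((shiftPoint W r t).toAddMonoidHom.comp f).comp (shiftPoint W r t).symm.toAddMonoidHom) :=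
  sorry

/-! ## Piece `Val.lean` (helper17): valuation subrings of `ℚ̄` and inertia -/

section Val

variable {F L : Type*} [Field F] [Field L] [Algebra F L]

theorem inertia_val_eq (A : ValuationSubring L) {σ : L ≃ₐ[F] L}
    (hσ : σ ∈ A.inertiaSubgroupIn F) (x : L) : A.valuation (σ x) = A.valuation x := sorry

theorem inertia_sub_lt_one (A : ValuationSubring L) {σ : L ≃ₐ[F] L}
    (hσ : σ ∈ A.inertiaSubgroupIn F) {x : L} (hx : A.valuation x ≤ 1) :
    A.valuation (σ x - x) < 1 := sorry

variable [CharZero L]

theorem val_intCast_le_one (A : ValuationSubring L) (n : ℤ) : A.valuation (n : L) ≤ 1 := sorry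

theorem val_intCast_eq_one (A : ValuationSubring L) {q : ℕ} (hq : q.Prime)
    (hA : A.LiesOverPrime q) {n : ℤ} (hn : ¬ (q : ℤ) ∣ n) : A.valuation (n : L) = 1 := sorry

theorem val_intCast_lt_one (A : ValuationSubring L) {q : ℕ} (hA : A.LiesOverPrime q) {n : ℤ}
    (hn : (q : ℤ) ∣ n) : A.valuation (n : L) < 1 := sorry

end Val

end Fermat.Agent.S05.Skeleton
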